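import Fermat.Statements.S09

set_option autoImplicit false
open WeierstrassCurve WeierstrassCurve.Affine WeierstrassCurve.Affine.Point
open FreyPackage

namespace Fermat.Agent.S09

theorem irreducible_of_cofixed (P : FreyPackage)
    (h13 : ¬ GaloisRepIsIrreducible (K := AlgebraicClosure ℚ) ℚ P.freyCurve P.p →
      HasGaloisStableCofixedLine (K := AlgebraicClosure ℚ) ℚ P.freyCurve P.p)
    (h10 : (P.p = 5 ∨ P.p = 7 ∨ P.p = 13) →
      ¬ HasGaloisStableCofixedLine (K := AlgebraicClosure ℚ) ℚ P.freyCurve P.p)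
    (h11 : P.p = 11 →
      ¬ HasGaloisStableCofixedLine (K := AlgebraicClosure ℚ) ℚ P.freyCurve P.p)
    (h12 : 17 ≤ P.p →
      ¬ HasGaloisStableCofixedLine (K := AlgebraicClosure ℚ) ℚ P.freyCurve P.p) :
    GaloisRepIsIrreducible (K := AlgebraicClosure ℚ) ℚ P.freyCurve P.p := by
  by_contra hred
  have hc := h13 hred
  have hp5 := P.hp5
  have hpp := P.pp
  by_cases h17 : 17 ≤ P.p
  · exact h12 h17 hc
  · have hlt : P.p < 17 := by omega
    have hcases : P.p = 5 ∨ P.p = 7 ∨ P.p = 11 ∨ P.p = 13 := by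
      generalize P.p = q at hp5 hpp hlt
      interval_cases q <;> first | omega | (exfalso; revert hpp; decide)
    rcases hcases with h | h | h | h
    · exact h10 (Or.inl h) hc
    · exact h10 (Or.inr (Or.inl h)) hc
    · exact h11 h hc
    · exact h10 (Or.inr (Or.inr h)) hc

end Fermat.Agent.S09
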